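import Fermat.Agent.S52.H94.CHModel
import Fermat.Agent.S52.H99.Leaves

/-!
# S52 / Program E, package E1: the leaves of `H94/CHModel.lean` on the `H76` model

`H94.CHModel` states the leaves of Manin's method as `Prop`-valued definitions on the model
`H76.Etw`, `H76.hP`, `H76.P0`.  Here we prove four of them, from the generic twisted
endomorphisms `H99.twEnd` and the substitution homomorphism `H41.substHom`
(`H76.Etw A B` is definitionally `H99.shortW (C A * lam ^ 2) (C B * lam ^ 3)`):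

* `mzStatement : H94.MZStatement A B`;
* `phiExistsStatement : H94.PhiExistsStatement A B l` (characteristic exponent `l`, `l` odd,
  `A ^ l = A`, `B ^ l = B`), with the variant `phiExistsStatement_zmod` over `ZMod l`;
* `phiHeightStatement : H94.PhiHeightStatement A B l` (`l` odd);
* `sigmaStatement : H94.SigmaStatement A B h2 l` (`l` odd).
-/

set_option autoImplicit false

namespace Fermat.Agent.S52.H10

open WeierstrassCurve WeierstrassCurve.Affine
open Fermat.Agent.S52

noncomputable section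

variable {F : Type*} [Field F] (A B : F)

lemma lam_eq_lam : H76.lam A B = H99.lam A B := by
  rw [H76.lam_eq, H99.lam]

lemma intDegree_lam : (H76.lam A B).intDegree = 3 := by
  rw [lam_eq_lam, H99.intDegree_lam]

lemma odd_half {l : ℕ} (hl : Odd l) : 2 * ((l - 1) / 2) + 1 = l := by
  obtain ⟨k, rfl⟩ := hl
  omega

variable [DecidableEq (RatFunc F)]

/-- **(MZ)** on the `H76` model: a point of height zero is killed by `2`. -/
theorem mzStatement : H94.MZStatement A B := by
  intro R hR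
  rcases R with _ | ⟨x, y, h⟩
  · exact nsmul_zero 2
  rw [H76.hP_some] at hR
  have hl0 := H76.lam_ne_zero A B
  have hc : ∃ c, x / H76.lam A B = RatFunc.C c := by
    by_contra hne
    exact absurd hR (H41.ht_pos_of_ne_C _ hne).ne'
  obtain ⟨c, hc⟩ := hc
  have hx : x = RatFunc.C c * H76.lam A B := by
    rw [← hc, div_mul_cancel₀ _ hl0]
  have heq := (H76.Etw_equation_iff A B x y).mp h.1
  have hy2 : y ^ 2 = H76.lam A B ^ 3 * RatFunc.C (c ^ 3 + A * c + B) := by
    rw [heq, hx, map_add, map_add, map_mul, map_pow]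
    ring
  have hy : y = 0 := by
    by_contra hy0
    have hd : RatFunc.C (c ^ 3 + A * c + B) ≠ 0 := by
      intro h0
      rw [h0, mul_zero] at hy2
      exact hy0 ((pow_eq_zero_iff (two_ne_zero)).mp hy2)
    have h1 : (y ^ 2).intDegree = 2 * y.intDegree := by
      rw [pow_two, RatFunc.intDegree_mul hy0 hy0]
      ring
    have h2 : (H76.lam A B ^ 3 * RatFunc.C (c ^ 3 + A * c + B)).intDegree = 9 := by
      rw [RatFunc.intDegree_mul (pow_ne_zero 3 hl0) hd, RatFunc.intDegree_C, pow_succ, pow_two,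
        RatFunc.intDegree_mul (mul_ne_zero hl0 hl0) hl0, RatFunc.intDegree_mul hl0 hl0,
        intDegree_lam]
      norm_num
    rw [hy2, h2] at h1
    omega
  rw [two_nsmul]
  refine Point.add_self_of_Y_eq ?_
  rw [hy]
  simp [H76.Etw, negY]

section Phi

variable (l : ℕ)

/-- The Frobenius endomorphism of the twist on the `H76` model. -/
def PhiG [ExpChar F l] (hl : Odd l) (hA : A ^ l = A) (hB : B ^ l = B) :
    (H76.Etw A B).toAffine.Point →+ (H76.Etw A B).toAffine.Point :=
  H99.twEnd (RatFunc.C A * H76.lam A B ^ 2) (RatFunc.C B * H76.lam A B ^ 3)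
    (frobenius (RatFunc F) l) (H76.lam A B ^ ((l - 1) / 2))
    (pow_ne_zero _ (H76.lam_ne_zero A B))
    (by
      rw [frobenius_def, mul_pow, ← map_pow, hA, ← pow_mul, ← pow_mul, mul_assoc, ← pow_add]
      congr 2
      have := odd_half hl
      omega)
    (by
      rw [frobenius_def, mul_pow, ← map_pow, hB, ← pow_mul, ← pow_mul, mul_assoc, ← pow_add]
      congr 2
      have := odd_half hl
      omega)

theorem isPhi_PhiG [ExpChar F l] (hl : Odd l) (hA : A ^ l = A) (hB : B ^ l = B) :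
    H94.IsPhi A B l (PhiG A B l hl hA hB) := by
  intro x y h
  exact H99.twEnd_some (RatFunc.C A * H76.lam A B ^ 2) (RatFunc.C B * H76.lam A B ^ 3)
    (frobenius (RatFunc F) l) (H76.lam A B ^ ((l - 1) / 2))
    (pow_ne_zero _ (H76.lam_ne_zero A B)) _ _ h

/-- **(MPhi-a)** on the `H76` model: the Frobenius endomorphism exists. -/
theorem phiExistsStatement [ExpChar F l] (hl : Odd l) (hA : A ^ l = A) (hB : B ^ l = B) :
    H94.PhiExistsStatement A B l :=
  ⟨PhiG A B l hl hA hB, isPhi_PhiG A B l hl hA hB⟩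

/-- **(MPhi-b)** on the `H76` model: `h (Φ P) = l * h P`. -/
theorem phiHeightStatement (hl : Odd l) : H94.PhiHeightStatement A B l := by
  intro Φ hΦ P
  rcases P with _ | ⟨x, y, h⟩
  · change H76.hP A B (Φ 0) = l * H76.hP A B 0
    rw [map_zero]
    simp
  · obtain ⟨h', e⟩ := hΦ x y h
    rw [e, H76.hP_some, H76.hP_some]
    have e2 : x ^ l / (H76.lam A B ^ ((l - 1) / 2)) ^ 2 / H76.lam A B =
        (x / H76.lam A B) ^ l := by
      rw [div_pow, div_div, ← pow_mul, ← pow_succ]
      congr 2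
      have := odd_half hl
      omega
    rw [e2]
    exact H99.ht_pow _ _

/-- **(Msig)** on the `H76` model. -/
theorem sigmaStatement (h2 : (2 : F) ≠ 0) (hl : Odd l) : H94.SigmaStatement A B h2 l := by
  intro Φ hΦ Q hQ
  rcases Q with _ | ⟨XQ, YQ, hQn⟩
  · exact absurd rfl hQ
  rw [H76.hP_some] at hQ
  have hne : ¬∃ c, XQ / H76.lam A B = RatFunc.C c := by
    rintro ⟨c, hc⟩
    rw [hc] at hQ
    exact hQ (H41.ht_C c)
  have hl0 := H76.lam_ne_zero A B
  obtain ⟨ψ, hψ⟩ : ∃ ψ : RatFunc F →+* RatFunc F,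
      ψ = (H41.substHom (XQ / H76.lam A B) hne : RatFunc F →+* RatFunc F) := ⟨_, rfl⟩
  have hψX : ψ RatFunc.X = XQ / H76.lam A B := by rw [hψ]; exact H41.substHom_X _ hne
  have hψC : ∀ c : F, ψ (RatFunc.C c) = RatFunc.C c := fun c => by
    rw [hψ]; exact H41.substHom_C _ hne c
  obtain ⟨w, hw⟩ : ∃ w : RatFunc F, w = YQ / H76.lam A B ^ 2 := ⟨_, rfl⟩
  have hlam : ψ (H76.lam A B) = H76.lam A B * w ^ 2 := by
    have heq := (H76.Etw_equation_iff A B XQ YQ).mp hQn.1
    have e : ψ (H76.lam A B) =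
        (XQ / H76.lam A B) ^ 3 + RatFunc.C A * (XQ / H76.lam A B) + RatFunc.C B := by
      conv_lhs => rw [H76.lam_eq]
      rw [map_add, map_add, map_mul, map_pow, hψX, hψC, hψC]
    rw [e, hw]
    field_simp
    linear_combination (-1 : RatFunc F) * heq
  have hw0 : w ≠ 0 := by
    intro h0
    rw [h0] at hlam
    simp only [ne_eq, OfNat.ofNat_ne_zero, not_false_eq_true, zero_pow, mul_zero] at hlam
    exact hl0 ((map_eq_zero ψ).mp hlam)
  have ha : ψ (RatFunc.C A * H76.lam A B ^ 2) = RatFunc.C A * H76.lam A B ^ 2 * w ^ 4 := by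
    rw [map_mul, map_pow, hψC, hlam]; ring
  have hb : ψ (RatFunc.C B * H76.lam A B ^ 3) = RatFunc.C B * H76.lam A B ^ 3 * w ^ 6 := by
    rw [map_mul, map_pow, hψC, hlam]; ring
  obtain ⟨σ, hσ⟩ : ∃ σ : (H76.Etw A B).toAffine.Point →+ (H76.Etw A B).toAffine.Point,
      σ = H99.twEnd (RatFunc.C A * H76.lam A B ^ 2) (RatFunc.C B * H76.lam A B ^ 3) ψ w hw0
        ha hb := ⟨_, rfl⟩
  have hσsome : ∀ {x y : RatFunc F} (h : (H76.Etw A B).toAffine.Nonsingular x y),
      ∃ h' : (H76.Etw A B).toAffine.Nonsingular (ψ x / w ^ 2) (ψ y / w ^ 3),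
        σ (.some x y h) = .some (ψ x / w ^ 2) (ψ y / w ^ 3) h' := by
    intro x y h
    rw [hσ]
    exact H99.twEnd_some _ _ ψ w hw0 ha hb h
  have hψc : ψ (H76.lam A B ^ ((l - 1) / 2)) * w = w ^ l * H76.lam A B ^ ((l - 1) / 2) := by
    have hwl : w ^ l = w ^ ((l - 1) / 2 * 2) * w := by
      rw [← pow_succ]
      congr 1
      have := odd_half hl
      omega
    rw [map_pow, hlam, mul_pow, ← pow_mul, hwl]
    ring
  refine ⟨σ, ?_, ?_, ?_⟩
  · obtain ⟨h', e⟩ := hσsome (H76.P0_nonsingular A B h2)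
    rw [H76.P0, e]
    refine H99.some_congr' _ _ ?_ ?_
    · rw [map_mul, hlam, hψX]
      field_simp
    · rw [map_pow, hlam, hw]
      field_simp
  · intro P
    rcases P with _ | ⟨x, y, h⟩
    · change σ (Φ 0) = Φ (σ 0)
      rw [map_zero, map_zero, map_zero]
    · obtain ⟨h1, e1⟩ := hΦ x y h
      obtain ⟨h2', e2⟩ := hσsome h1
      obtain ⟨h3, e3⟩ := hσsome h
      obtain ⟨h4, e4⟩ := hΦ _ _ h3
      rw [e1, e2, e3, e4]
      have hc0 : H76.lam A B ^ ((l - 1) / 2) ≠ 0 := pow_ne_zero _ hl0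
      have hψc0 : ψ (H76.lam A B ^ ((l - 1) / 2)) ≠ 0 := (map_ne_zero ψ).mpr hc0
      refine H99.some_congr' _ _ ?_ ?_
      · have e5 : (w ^ l * H76.lam A B ^ ((l - 1) / 2)) ^ 2 =
            (w ^ 2) ^ l * (H76.lam A B ^ ((l - 1) / 2)) ^ 2 := by ring
        rw [map_div₀, map_pow, map_pow, div_div, ← mul_pow, hψc, e5, div_pow, div_div]
      · have e5 : (w ^ l * H76.lam A B ^ ((l - 1) / 2)) ^ 3 =
            (w ^ 3) ^ l * (H76.lam A B ^ ((l - 1) / 2)) ^ 3 := by ring
        rw [map_div₀, map_pow, map_pow, div_div, ← mul_pow, hψc, e5, div_pow, div_div]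
  · intro P
    rcases P with _ | ⟨x, y, h⟩
    · change H76.hP A B (σ 0) = H76.hP A B 0 * _
      rw [map_zero]
      simp
    · obtain ⟨h3, e3⟩ := hσsome h
      rw [e3, H76.hP_some, H76.hP_some, H76.hP_some]
      have e : ψ x / w ^ 2 / H76.lam A B = ψ (x / H76.lam A B) := by
        rw [map_div₀, hlam, div_div, mul_comm (w ^ 2)]
      rw [e, hψ]
      exact H41.ht_substHom _ hne _

end Phi

section ZModl

variable (l : ℕ) [Fact l.Prime] (A B : ZMod l) [DecidableEq (RatFunc (ZMod l))]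

omit [DecidableEq (RatFunc (ZMod l))] in
lemma odd_of_two_ne_zero (h2 : (2 : ZMod l) ≠ 0) : Odd l := by
  rcases (Fact.out : l.Prime).eq_two_or_odd' with h | h
  · exfalso
    apply h2
    have : ((2 : ℕ) : ZMod l) = 0 := by
      rw [ZMod.natCast_eq_zero_iff, h]
    exact_mod_cast this
  · exact h

/-- (MPhi-a) over `F_l`. -/
theorem phiExistsStatement_zmod (h2 : (2 : ZMod l) ≠ 0) : H94.PhiExistsStatement A B l :=
  haveI : ExpChar (ZMod l) l := ExpChar.prime Fact.out
  phiExistsStatement A B l (odd_of_two_ne_zero l h2) (ZMod.pow_card A) (ZMod.pow_card B)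

/-- Package E1 over `F_l` from the two remaining leaves (MN) and (TRANSFER): the leaves (MZ),
(MPhi-a), (MPhi-b), (Msig) of `H94.cayley_hamilton_of_leaves` are discharged. -/
theorem chStatement_of_MN_of_transfer (h2 : (2 : ZMod l) ≠ 0)
    (hΔ : 4 * A ^ 3 + 27 * B ^ 2 ≠ 0) (hMN : H94.MNStatement l A B h2)
    (hTr : H94.TransferStatement l A B h2) : H94.CHStatement l A B :=
  H94.cayley_hamilton_of_leaves l A B h2 hΔ (mzStatement A B) (phiExistsStatement_zmod l A B h2)
    (phiHeightStatement A B l (odd_of_two_ne_zero l h2))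
    (sigmaStatement A B l h2 (odd_of_two_ne_zero l h2)) hMN hTr

end ZModl

end

end Fermat.Agent.S52.H10
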